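import Fermat.Agent.S55.Top.ConeDefs
import Fermat.Agent.S13.MinkTwo
import Fermat.Prelude.Def_GroupCohomology_ContinuousUnramified

/-!
# S55, leaf T-BR-LEVELS: the level structures `levelsAll`, `levelsS S` on `Gal(Qbar/ℚ)`
and the comparison of `IsLC` with the Prelude's `IsLevelConstant(S)₁/₂`.

Section `BrLevels` of `BridgeSpec.lean` with every hole filled (definitions verbatim).
Helper lemmas are prefixed `brlev_`.
-/

set_option autoImplicit false

open groupCohomology ExtCitation

open scoped Pointwise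

namespace Fermat.Agent.S55

/-- the absolute Galois group of `ℚ` -/
abbrev GQ : Type := AlgebraicClosure ℚ ≃ₐ[ℚ] AlgebraicClosure ℚ

section BrLevels

local instance brlev_isAlgebraic : Algebra.IsAlgebraic ℚ (AlgebraicClosure ℚ) :=
  AlgebraicClosure.isAlgebraic ℚ
local instance brlev_isAlgClosure : IsAlgClosure ℚ (AlgebraicClosure ℚ) :=
  ⟨inferInstance, inferInstance⟩
local instance brlev_normal : Normal ℚ (AlgebraicClosure ℚ) :=
  IsAlgClosure.normal ℚ (AlgebraicClosure ℚ)
local instance brlev_isGalois : IsGalois ℚ (AlgebraicClosure ℚ) := inferInstance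

/-- the fixing subgroup of `E` is the whole group fixing `E` pointwise; this file states the
generic Galois theory over an arbitrary base field first: over `ℚ` the instance
`Algebra ℚ ↥E` found by unification differs syntactically from the generic one. -/
theorem brlev_gen_fixingSubgroup_normal {K L : Type*} [Field K] [Field L] [Algebra K L]
    (E : IntermediateField K L) [Normal K E] : E.fixingSubgroup.Normal := by
  rw [← IntermediateField.restrictNormalHom_ker]
  exact MonoidHom.normal_ker _

theorem brlev_gen_fixingSubgroup_finiteIndex_of_normal {K L : Type*} [Field K] [Field L]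
    [Algebra K L] (E : IntermediateField K L) [Normal K E] [FiniteDimensional K E] :
    E.fixingSubgroup.FiniteIndex := by
  rw [← IntermediateField.restrictNormalHom_ker]
  infer_instance

/-- the normal closure of an intermediate field, as an intermediate field (generic base) -/
noncomputable def brlevNC {K L : Type*} [Field K] [Field L] [Algebra K L] (F : IntermediateField K L) :
    IntermediateField K L :=
  IntermediateField.normalClosure K F L

theorem brlev_le_NC {K L : Type*} [Field K] [Field L] [Algebra K L] (F : IntermediateField K L) :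
    F ≤ brlevNC F :=
  IntermediateField.le_normalClosure F

theorem brlev_NC_finiteDimensional {K L : Type*} [Field K] [Field L] [Algebra K L]
    (F : IntermediateField K L) [FiniteDimensional K F] : FiniteDimensional K (brlevNC F) :=
  normalClosure.is_finiteDimensional K F L

theorem brlev_NC_fixingSubgroup_normal {K L : Type*} [Field K] [Field L] [Algebra K L]
    [Normal K L] (F : IntermediateField K L) : (brlevNC F).fixingSubgroup.Normal := by
  have : Normal K (brlevNC F) := normalClosure.normal K F L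
  exact brlev_gen_fixingSubgroup_normal _

theorem brlev_NC_eq_iSup {K L : Type*} [Field K] [Field L] [Algebra K L]
    [Normal K L] (F : IntermediateField K L) :
    brlevNC F = ⨆ f : L ≃ₐ[K] L, F.map (f : L →ₐ[K] L) :=
  IntermediateField.normalClosure_def'' F

/-- the fixing subgroup of a finite subextension has finite index -/
theorem brlev_gen_fixingSubgroup_finiteIndex {K L : Type*} [Field K] [Field L] [Algebra K L]
    [Normal K L] (F : IntermediateField K L) [FiniteDimensional K F] :
    F.fixingSubgroup.FiniteIndex := by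
  have : Normal K (brlevNC F) := normalClosure.normal K F L
  have : FiniteDimensional K (brlevNC F) := brlev_NC_finiteDimensional F
  have h1 : (brlevNC F).fixingSubgroup.FiniteIndex :=
    brlev_gen_fixingSubgroup_finiteIndex_of_normal _
  exact Subgroup.finiteIndex_of_le (IntermediateField.fixingSubgroup_antitone (brlev_le_NC F))

/-- a conjugate of a field unramified outside `S` is contained in the fixed field of every
inertia element outside `S` -/
theorem brlev_inertia_fixes_map {S : Finset Nat.Primes}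
    {F : IntermediateField ℚ (AlgebraicClosure ℚ)} (hF : F.IsUnramifiedOutside S)
    (q : Nat.Primes) (hq : q ∉ S) (A : ValuationSubring (AlgebraicClosure ℚ))
    (hA : A.LiesOverPrime (q : ℕ)) (τ : GQ) (hτ : τ ∈ A.inertiaSubgroupIn ℚ) (σ : GQ) :
    τ ∈ (F.map (σ : AlgebraicClosure ℚ →ₐ[ℚ] AlgebraicClosure ℚ)).fixingSubgroup := by
  rw [IntermediateField.mem_fixingSubgroup_iff]
  rintro y ⟨x, hx, rfl⟩
  -- `σ⁻¹ τ σ` is in the inertia group of `σ⁻¹ • A`
  have h1 : σ⁻¹ * τ * σ⁻¹⁻¹ ∈ (σ⁻¹ • A).inertiaSubgroupIn ℚ :=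
    Fermat.Agent.S13.mink_conj_mem_inertiaSubgroupIn A τ σ⁻¹ hτ
  have hA' : (σ⁻¹ • A).LiesOverPrime (q : ℕ) := by
    have := (Fermat.Agent.S13.mink_smul_mem_smul_nonunits_iff (F := ℚ) A σ⁻¹
      ((q : ℕ) : AlgebraicClosure ℚ)).mpr hA
    rwa [map_natCast] at this
  have h2 := hF.2 q hq (σ⁻¹ • A) hA' h1
  have h3 := (IntermediateField.mem_fixingSubgroup_iff _ _).mp h2 x hx
  rw [inv_inv] at h3
  have h4 : σ⁻¹ (τ (σ x)) = x := h3
  have h5 := congrArg σ h4
  rw [AlgEquiv.aut_inv, AlgEquiv.apply_symm_apply] at h5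
  exact h5

/-- the normal closure of a field unramified outside `S` is unramified outside `S` -/
theorem brlev_NC_isUnramifiedOutside {S : Finset Nat.Primes}
    {F : IntermediateField ℚ (AlgebraicClosure ℚ)} (hF : F.IsUnramifiedOutside S) :
    (brlevNC F).IsUnramifiedOutside S := by
  have := hF.1
  refine ⟨brlev_NC_finiteDimensional F, fun q hq A hA τ hτ => ?_⟩
  have hz : Subgroup.zpowers τ ≤ (brlevNC F).fixingSubgroup := by
    rw [← IntermediateField.le_iff_le, brlev_NC_eq_iSup, iSup_le_iff]
    intro σ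
    rw [IntermediateField.le_iff_le, Subgroup.zpowers_le]
    exact brlev_inertia_fixes_map hF q hq A hA τ hτ σ
  exact hz (Subgroup.mem_zpowers τ)

/-- all open subgroups: fixing subgroups of finite subextensions -/
def levelsAll : Levels GQ where
  IsLevel U := ∃ F : IntermediateField ℚ (AlgebraicClosure ℚ),
    FiniteDimensional ℚ F ∧ U = F.fixingSubgroup
  exists_level := ⟨_, ⊥, inferInstance, rfl⟩
  exists_le_inf := by
    rintro _ _ ⟨F, hF, rfl⟩ ⟨F', hF', rfl⟩
    refine ⟨(F ⊔ F').fixingSubgroup, ⟨F ⊔ F', IntermediateField.finiteDimensional_sup F F', rfl⟩,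
      ?_⟩
    rw [IntermediateField.fixingSubgroup_sup]
  exists_normal_le := by
    rintro _ ⟨F, hF, rfl⟩
    exact ⟨(brlevNC F).fixingSubgroup, ⟨_, brlev_NC_finiteDimensional F, rfl⟩,
      brlev_NC_fixingSubgroup_normal F,
      IntermediateField.fixingSubgroup_antitone (brlev_le_NC F)⟩
  finiteIndex := by
    rintro _ ⟨F, hF, rfl⟩
    exact brlev_gen_fixingSubgroup_finiteIndex F

/-- open subgroups containing all inertia groups outside `S` -/
def levelsS (S : Finset Nat.Primes) : Levels GQ where
  IsLevel U := ∃ F : IntermediateField ℚ (AlgebraicClosure ℚ),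
    F.IsUnramifiedOutside S ∧ U = F.fixingSubgroup
  exists_level := ⟨_, ⊥, IntermediateField.isUnramifiedOutside_bot S, rfl⟩
  exists_le_inf := by
    rintro _ _ ⟨F, hF, rfl⟩ ⟨F', hF', rfl⟩
    refine ⟨(F ⊔ F').fixingSubgroup, ⟨F ⊔ F', hF.sup hF', rfl⟩, ?_⟩
    rw [IntermediateField.fixingSubgroup_sup]
  exists_normal_le := by
    rintro _ ⟨F, hF, rfl⟩
    exact ⟨(brlevNC F).fixingSubgroup, ⟨_, brlev_NC_isUnramifiedOutside hF, rfl⟩,
      brlev_NC_fixingSubgroup_normal F,
      IntermediateField.fixingSubgroup_antitone (brlev_le_NC F)⟩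
  finiteIndex := by
    rintro _ ⟨F, hF, rfl⟩
    have := hF.1
    exact brlev_gen_fixingSubgroup_finiteIndex F

variable (S : Finset Nat.Primes)

theorem levelsS_isLevel_levelsAll (U : Subgroup GQ) (hU : (levelsS S).IsLevel U) :
    levelsAll.IsLevel U := by
  obtain ⟨F, hF, rfl⟩ := hU
  exact ⟨F, hF.1, rfl⟩

/-- the local system of the frozen statement: the finite places in `S`, full local Galois
groups `Gal(PadicAlgCl q / ℚ_q)` with the levels pulled back from `levelsAll` -/
noncomputable def locSysS : LocSys (levelsS S) ↥S (fun q : ↥S => primeLocalGaloisGroup q.1) where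
  lev q := levelsAll.comap (primeLocalToGlobal q.1)
  r q := primeLocalToGlobal q.1
  cont q := fun U hU => ⟨U.comap _, ⟨U, levelsS_isLevel_levelsAll S U hU, rfl⟩, le_rfl⟩

theorem isLC₁_levelsS_iff {X : Type*} (f : GQ → X) :
    IsLC₁ (levelsS S) f ↔ IsLevelConstantS₁ S f := by
  constructor
  · rintro ⟨_, ⟨F, hF, rfl⟩, h⟩
    exact ⟨F, hF, h⟩
  · rintro ⟨F, hF, h⟩
    exact ⟨F.fixingSubgroup, ⟨F, hF, rfl⟩, h⟩

theorem isLC₂_levelsS_iff {X : Type*} (f : GQ × GQ → X) :
    IsLC₂ (levelsS S) f ↔ IsLevelConstantS₂ S f := by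
  constructor
  · rintro ⟨_, ⟨F, hF, rfl⟩, h⟩
    exact ⟨F, hF, h⟩
  · rintro ⟨F, hF, h⟩
    exact ⟨F.fixingSubgroup, ⟨F, hF, rfl⟩, h⟩

theorem isLC₁_comap_iff {H : Type} [Group H] (r : H →* GQ) {X : Type*} (f : H → X) :
    IsLC₁ (levelsAll.comap r) f ↔ IsLevelConstant₁ r f := by
  constructor
  · rintro ⟨_, ⟨_, ⟨F, hF, rfl⟩, rfl⟩, h⟩
    exact ⟨F, hF, fun g s hs => h g s hs⟩
  · rintro ⟨F, hF, h⟩
    exact ⟨F.fixingSubgroup.comap r, ⟨F.fixingSubgroup, ⟨F, hF, rfl⟩, rfl⟩,
      fun g s hs => h g s hs⟩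

theorem isLC₂_comap_iff {H : Type} [Group H] (r : H →* GQ) {X : Type*} (f : H × H → X) :
    IsLC₂ (levelsAll.comap r) f ↔ IsLevelConstant₂ r f := by
  constructor
  · rintro ⟨_, ⟨_, ⟨F, hF, rfl⟩, rfl⟩, h⟩
    exact ⟨F, hF, fun g g' s s' hs hs' => h g g' s s' hs hs'⟩
  · rintro ⟨F, hF, h⟩
    exact ⟨F.fixingSubgroup.comap r, ⟨F.fixingSubgroup, ⟨F, hF, rfl⟩, rfl⟩,
      fun g g' s s' hs hs' => h g g' s s' hs hs'⟩

end BrLevels

end Fermat.Agent.S55
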