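import Fermat.Agent.S55.Top.DevSpec
import Fermat.Agent.S55.Bridge.Levels
import Fermat.Agent.S05.Inertia
import Fermat.Agent.S14.PlumbAction
import Fermat.Prelude.Def_GroupCohomology_ContinuousUnramified
import Fermat.Prelude.Def_ExtCitation_KummerBridge
import Fermat.Prelude.Def_GroupCohomology_Selmer

/-!
# S55, leaf T-BR-PAIR: the frozen hypotheses in the language of the top layer.

Section `BrPair` of `BridgeSpec.lean` with every hole filled (definitions verbatim):
`cycloChar_smooth` (`ℚ(μ_p)` is unramified outside `p` in the Prelude's sense, so the mod `p`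
cyclotomic character is trivial on a level of `levelsS S` when `p ∈ S`), `isSmoothRep_of_frozen`,
`evalPairing`, `perfPair_frozen`, `perfPair_frozen_flip`.  Helper lemmas are prefixed `brpair`.
-/

set_option autoImplicit false

open groupCohomology ExtCitation

namespace Fermat.Agent.S55

section BrPair

/-- a root of unity has valuation one -/
theorem brpair_valuation_eq_one {K : Type*} [Field K] (A : ValuationSubring K) {ζ : K} {n : ℕ}
    (hn : n ≠ 0) (h : ζ ^ n = 1) : A.valuation ζ = 1 := by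
  have h1 : A.valuation ζ ^ n = 1 := by rw [← map_pow, h, map_one]
  rcases lt_trichotomy (A.valuation ζ) 1 with hlt | heq | hgt
  · exact absurd h1 (ne_of_lt (pow_lt_one₀ zero_le hlt hn))
  · exact heq
  · exact absurd h1 (ne_of_gt (one_lt_pow₀ hgt hn))

/-- `p = ∏ (1 - μ)` over the primitive `p`-th roots of unity -/
theorem brpair_prod_one_sub {K : Type*} [Field K] {p : ℕ} [Fact p.Prime] {η : K}
    (hη : IsPrimitiveRoot η p) : (p : K) = ∏ μ ∈ primitiveRoots p K, (1 - μ) := by
  have h1 := Polynomial.cyclotomic_eq_prod_X_sub_primitiveRoots hη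
  have h2 := congrArg (Polynomial.eval 1) h1
  rw [Polynomial.eval_one_cyclotomic_prime, Polynomial.eval_prod] at h2
  simpa using h2

/-- if `A` lies over `q ≠ p`, then `1 - η` is a unit of `A` for a primitive `p`-th root `η` -/
theorem brpair_valuation_one_sub {K : Type*} [Field K] {p : ℕ} [Fact p.Prime] {q : ℕ}
    (hq : q.Prime) (hqp : q ≠ p) (A : ValuationSubring K) (hA : A.LiesOverPrime q) {η : K}
    (hη : IsPrimitiveRoot η p) : A.valuation (1 - η) = 1 := by
  classical
  have hp : p.Prime := Fact.out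
  have hle : ∀ μ ∈ primitiveRoots p K, A.valuation (1 - μ) ≤ 1 := by
    intro μ hμ
    have hμ' : μ ^ p = 1 := ((mem_primitiveRoots hp.pos).1 hμ).pow_eq_one
    refine le_trans (A.valuation.map_sub _ _) ?_
    rw [map_one, brpair_valuation_eq_one A hp.ne_zero hμ', max_self]
  have hvp : A.valuation ((p : ℤ) : K) = 1 := by
    rw [Fermat.Agent.S05.valuation_intCast_eq_one_iff A hq hA]
    intro hdvd
    have : q ∣ p := by exact_mod_cast hdvd
    exact hqp ((Nat.prime_dvd_prime_iff_eq hq hp).1 this)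
  rw [Int.cast_natCast, brpair_prod_one_sub hη, map_prod] at hvp
  have hmem : η ∈ primitiveRoots p K := (mem_primitiveRoots hp.pos).2 hη
  rw [← Finset.mul_prod_erase _ _ hmem] at hvp
  refine le_antisymm (hle η hmem) ?_
  by_contra hlt
  rw [not_le] at hlt
  have h3 : ∏ μ ∈ (primitiveRoots p K).erase η, A.valuation (1 - μ) ≤ 1 :=
    Finset.prod_le_one' fun μ hμ => hle μ (Finset.mem_of_mem_erase hμ)
  have h4 : A.valuation (1 - η) * ∏ μ ∈ (primitiveRoots p K).erase η, A.valuation (1 - μ) < 1 :=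
    calc _ ≤ A.valuation (1 - η) * 1 := by gcongr
      _ < 1 := by simpa using hlt
  rw [hvp] at h4
  exact lt_irrefl _ h4

/-- inertia at `q ≠ p` fixes the `p`-th roots of unity -/
theorem brpair_inertia_fixes_root {p : ℕ} [Fact p.Prime] {q : ℕ} (hq : q.Prime) (hqp : q ≠ p)
    (A : ValuationSubring (AlgebraicClosure ℚ)) (hA : A.LiesOverPrime q) (τ : GQ)
    (hτ : τ ∈ A.inertiaSubgroupIn ℚ) {ζ : AlgebraicClosure ℚ} (hζ : ζ ^ p = 1) : τ ζ = ζ := by
  have hp : p.Prime := Fact.out
  by_contra hne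
  have hin := Fermat.Agent.S05.isInertial_of_mem_inertiaSubgroupIn A τ hτ
  have hζ0 : ζ ≠ 0 := fun h => by
    rw [h, zero_pow hp.ne_zero] at hζ
    exact zero_ne_one hζ
  have hvζ : A.valuation ζ = 1 := brpair_valuation_eq_one A hp.ne_zero hζ
  have hζA : ζ ∈ A := (A.valuation_le_one_iff ζ).1 hvζ.le
  have hsub : A.valuation (τ ζ - ζ) < 1 :=
    (ValuationSubring.mem_nonunits_iff (A := A)).1 (hin.sub_mem ζ hζA)
  have hηp : (τ ζ / ζ) ^ p = 1 := by rw [div_pow, ← map_pow, hζ, map_one, div_one]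
  have hη1 : τ ζ / ζ ≠ 1 := fun h => hne ((div_eq_one_iff_eq hζ0).1 h)
  have hprim : IsPrimitiveRoot (τ ζ / ζ) p :=
    isPrimitiveRoot_of_mem_nthRootsFinset hp ((Polynomial.mem_nthRootsFinset hp.pos _).2 hηp) hη1
  have h1 := brpair_valuation_one_sub hq hqp A hA hprim
  have h2 : A.valuation (1 - τ ζ / ζ) = A.valuation (τ ζ - ζ) := by
    rw [Valuation.map_sub_swap, show τ ζ / ζ - 1 = (τ ζ - ζ) / ζ by field_simp, map_div₀, hvζ,
      div_one]
  rw [h2] at h1
  rw [h1] at hsub
  exact lt_irrefl _ hsub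

/-- an automorphism fixing `ζ` fixes `K(ζ)` -/
theorem brpair_mem_fixingSubgroup_adjoin {K L : Type*} [Field K] [Field L] [Algebra K L] (ζ : L)
    (τ : L ≃ₐ[K] L) (h : τ ζ = ζ) : τ ∈ (IntermediateField.adjoin K {ζ}).fixingSubgroup := by
  have hst : Subgroup.zpowers τ ≤ MulAction.stabilizer (L ≃ₐ[K] L) ζ := by
    rw [Subgroup.zpowers_le]
    exact h
  have hz : Subgroup.zpowers τ ≤ (IntermediateField.adjoin K {ζ}).fixingSubgroup := by
    rw [← IntermediateField.le_iff_le, IntermediateField.adjoin_le_iff]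
    rintro x rfl
    rw [SetLike.mem_coe, IntermediateField.mem_fixedField_iff]
    intro g hg
    exact hst hg
  exact hz (Subgroup.mem_zpowers τ)

theorem brpair_finiteDimensional_adjoin {K L : Type*} [Field K] [Field L] [Algebra K L]
    [Algebra.IsAlgebraic K L] (ζ : L) : FiniteDimensional K (IntermediateField.adjoin K {ζ}) :=
  IntermediateField.adjoin.finiteDimensional (Algebra.IsIntegral.isIntegral ζ)

variable {p : ℕ} [Fact p.Prime] (S : Finset Nat.Primes)

/-- the cyclotomic character is trivial on a level of `levelsS S` when `p ∈ S`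
(`ℚ(μ_p)` is unramified outside `p` in the Prelude's sense) -/
theorem cycloChar_smooth (hpS : pPrime p ∈ S) :
    ∃ U, (levelsS S).IsLevel U ∧ U ≤ (cycloChar p).ker := by
  obtain ⟨ζ, hζ⟩ := Fermat.Agent.S14.plumb_exists_primitiveRoot p
  have : Algebra.IsAlgebraic ℚ (AlgebraicClosure ℚ) := AlgebraicClosure.isAlgebraic ℚ
  refine ⟨(IntermediateField.adjoin ℚ {ζ}).fixingSubgroup,
    ⟨IntermediateField.adjoin ℚ {ζ}, ⟨brpair_finiteDimensional_adjoin ζ, ?_⟩, rfl⟩, ?_⟩
  · intro q hq A hA τ hτ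
    have hqp : (q : ℕ) ≠ p := by
      intro h
      apply hq
      have : q = pPrime p := Subtype.ext h
      rw [this]
      exact hpS
    exact brpair_mem_fixingSubgroup_adjoin ζ τ
      (brpair_inertia_fixes_root q.2 hqp A hA τ hτ hζ.pow_eq_one)
  · intro σ hσ
    have hfix : σ ζ = ζ :=
      (IntermediateField.mem_fixingSubgroup_iff _ _).1 hσ ζ
        (IntermediateField.mem_adjoin_simple_self ℚ ζ)
    have h1 := Fermat.Agent.S14.plumb_cycloExp_eq_one_of_fix p σ hζ hfix
    rw [MonoidHom.mem_ker]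
    apply Units.ext
    rw [coe_cycloChar, h1, Units.val_one]

/-- the stabiliser of a vector as a subgroup -/
def brpairStab {k G V : Type*} [CommRing k] [Group G] [AddCommGroup V] [Module k V]
    (ρ : Representation k G V) (m : V) : Subgroup G where
  carrier := {s | ρ s m = m}
  one_mem' := by simp
  mul_mem' := by
    intro a b ha hb
    change ρ a m = m at ha
    change ρ b m = m at hb
    change ρ (a * b) m = m
    rw [map_mul, Module.End.mul_apply, hb, ha]
  inv_mem' := by
    intro a ha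
    change ρ a m = m at ha
    change ρ a⁻¹ m = m
    calc ρ a⁻¹ m = ρ a⁻¹ (ρ a m) := by rw [ha]
      _ = m := by rw [← Module.End.mul_apply, ← map_mul, inv_mul_cancel, map_one,
        Module.End.one_apply]

theorem brpair_mem_stab {k G V : Type*} [CommRing k] [Group G] [AddCommGroup V] [Module k V]
    (ρ : Representation k G V) (m : V) (s : G) : s ∈ brpairStab ρ m ↔ ρ s m = m := Iff.rfl

/-- a subgroup of `Gal(Qbar/ℚ)` containing the fixing subgroup of a finite extension is the
fixing subgroup of a subfield of that extension -/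
theorem brpair_exists_field_of_le (N : Subgroup GQ) (F : IntermediateField ℚ (AlgebraicClosure ℚ))
    (hfd : FiniteDimensional ℚ F) (hFN : F.fixingSubgroup ≤ N) :
    ∃ F' : IntermediateField ℚ (AlgebraicClosure ℚ), FiniteDimensional ℚ F' ∧
      F'.fixingSubgroup = N := by
  have : Algebra.IsAlgebraic ℚ (AlgebraicClosure ℚ) := AlgebraicClosure.isAlgebraic ℚ
  have : IsAlgClosure ℚ (AlgebraicClosure ℚ) := ⟨inferInstance, inferInstance⟩
  have : Normal ℚ (AlgebraicClosure ℚ) := IsAlgClosure.normal ℚ (AlgebraicClosure ℚ)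
  have : IsGalois ℚ (AlgebraicClosure ℚ) := inferInstance
  have hopen : IsOpen (N : Set GQ) :=
    Subgroup.isOpen_mono hFN (IntermediateField.fixingSubgroup_isOpen F)
  have hclosed : IsClosed (N : Set GQ) := OpenSubgroup.isClosed ⟨N, hopen⟩
  have h1 : (IntermediateField.fixedField N).fixingSubgroup = N :=
    InfiniteGalois.fixingSubgroup_fixedField ⟨N, hclosed⟩
  have h2 : IntermediateField.fixedField N ≤ F := by
    have h3 := InfiniteGalois.fixedField_fixingSubgroup F
    rw [← h3]
    exact IntermediateField.fixedField_le hFN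
  exact ⟨IntermediateField.fixedField N,
    FiniteDimensional.of_injective (IntermediateField.inclusion h2).toLinearMap
      (IntermediateField.inclusion_injective h2), h1⟩

/-- the hypotheses `hsm`, `hMur` of the frozen statement say that `M` is smooth for `levelsS S` -/
theorem isSmoothRep_of_frozen (M : Rep (ZMod p) GQ) [FiniteDimensional (ZMod p) M]
    (hsm : ∀ m : M, ∃ F : IntermediateField ℚ (AlgebraicClosure ℚ), FiniteDimensional ℚ F ∧
      ∀ s ∈ F.fixingSubgroup, M.ρ s m = m)
    (hMur : ∀ q : Nat.Primes, q ∉ S → ∀ A : ValuationSubring (AlgebraicClosure ℚ),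
      A.LiesOverPrime (q : ℕ) → ∀ g ∈ A.inertiaSubgroupIn ℚ, M.ρ g = 1) :
    IsSmoothRep (levelsS S) M.ρ := by
  intro m
  obtain ⟨F, hF, hFm⟩ := hsm m
  obtain ⟨F', hF', hF'N⟩ := brpair_exists_field_of_le (brpairStab M.ρ m) F hF hFm
  refine ⟨F'.fixingSubgroup, ⟨F', ⟨hF', fun q hq A hA g hg => ?_⟩, rfl⟩, fun s hs => ?_⟩
  · rw [hF'N, brpair_mem_stab, hMur q hq A hA g hg, Module.End.one_apply]
  · rw [hF'N] at hs
    exact hs

/-- evaluation pairing `M × M^∨(χ) → k` -/
def evalPairing {k : Type} [Field k] {G : Type} [Group G] (M : Rep k G) (χ : G →* kˣ) :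
    M →ₗ[k] (M.dualTwist χ) →ₗ[k] k :=
  (LinearMap.id : Module.Dual k M →ₗ[k] Module.Dual k M).flip

@[simp] theorem evalPairing_apply {k : Type} [Field k] {G : Type} [Group G] (M : Rep k G)
    (χ : G →* kˣ) (m : M) (f : M.dualTwist χ) : evalPairing M χ m f = (f : Module.Dual k M) m :=
  rfl

section General

variable {k : Type} [Field k] {G : Type} [Group G] (𝓛 : Levels G) (χ : G →* kˣ)

/-- a character trivial on a level is smooth -/
theorem brpair_chiRep_smooth (hχ : ∃ U, 𝓛.IsLevel U ∧ U ≤ χ.ker) :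
    IsSmoothRep 𝓛 (chiRep χ) := by
  obtain ⟨U, hU, hle⟩ := hχ
  intro x
  refine ⟨U, hU, fun s hs => ?_⟩
  rw [chiRep_apply, MonoidHom.mem_ker.1 (hle hs), Units.val_one, one_mul]

/-- the twisted dual of a finite-dimensional smooth representation is smooth -/
theorem brpair_dualTwist_smooth (hχ : ∃ U, 𝓛.IsLevel U ∧ U ≤ χ.ker) (M : Rep k G)
    [FiniteDimensional k M] (hM : IsSmoothRep 𝓛 M.ρ) :
    IsSmoothRep 𝓛 (M.dualTwist χ).ρ := by
  obtain ⟨U, hU, hle⟩ := hχ
  obtain ⟨U', hU', -, htriv⟩ := hM.exists_level_trivial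
  obtain ⟨W, hW, hWle⟩ := 𝓛.exists_le_inf U U' hU hU'
  intro f
  refine ⟨W, hW, fun s hs => ?_⟩
  have h1 : χ s = 1 := MonoidHom.mem_ker.1 (hle (hWle hs).1)
  have h2 : M.ρ s⁻¹ = 1 := htriv s⁻¹ (U'.inv_mem (hWle hs).2)
  rw [Rep.dualTwist_ρ_apply, h1, h2, Units.val_one, one_smul]
  rfl

theorem brpair_equivariant (M : Rep k G) :
    IsEquivariant₂ M.ρ (M.dualTwist χ).ρ (chiRep χ) (evalPairing M χ) := by
  intro g m f
  rw [evalPairing_apply, Rep.dualTwist_ρ_apply, chiRep_apply, evalPairing_apply,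
    LinearMap.smul_apply, LinearMap.comp_apply, smul_eq_mul]
  congr 2
  rw [← Module.End.mul_apply, ← map_mul, inv_mul_cancel, map_one, Module.End.one_apply]

theorem brpair_equivariant_flip (M : Rep k G) :
    IsEquivariant₂ (M.dualTwist χ).ρ M.ρ (chiRep χ) (evalPairing M χ).flip := by
  intro g f m
  exact brpair_equivariant χ M g m f

theorem brpair_nondeg_left (M : Rep k G) (m : M) (h : ∀ f, evalPairing M χ m f = 0) : m = 0 := by
  rw [← Module.forall_dual_apply_eq_zero_iff k]
  intro f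
  exact h f

theorem brpair_nondeg_right (M : Rep k G) (f : M.dualTwist χ) (h : ∀ m, evalPairing M χ m f = 0) :
    f = 0 := by
  apply LinearMap.ext
  intro m
  exact h m

theorem brpair_perfPair (hχ : ∃ U, 𝓛.IsLevel U ∧ U ≤ χ.ker) (M : Rep k G)
    [FiniteDimensional k M] (hM : IsSmoothRep 𝓛 M.ρ) :
    PerfPair 𝓛 χ M.ρ (M.dualTwist χ).ρ (evalPairing M χ) where
  finV := inferInstance
  finW := inferInstanceAs (FiniteDimensional k (Module.Dual k M))
  pd := ⟨hM, brpair_dualTwist_smooth 𝓛 χ hχ M hM, brpair_chiRep_smooth 𝓛 χ hχ,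
    brpair_equivariant χ M⟩
  nondeg_left := brpair_nondeg_left χ M
  nondeg_right := brpair_nondeg_right χ M

theorem brpair_perfPair_flip (hχ : ∃ U, 𝓛.IsLevel U ∧ U ≤ χ.ker) (M : Rep k G)
    [FiniteDimensional k M] (hM : IsSmoothRep 𝓛 M.ρ) :
    PerfPair 𝓛 χ (M.dualTwist χ).ρ M.ρ (evalPairing M χ).flip where
  finV := inferInstanceAs (FiniteDimensional k (Module.Dual k M))
  finW := inferInstance
  pd := ⟨brpair_dualTwist_smooth 𝓛 χ hχ M hM, hM, brpair_chiRep_smooth 𝓛 χ hχ,
    brpair_equivariant_flip χ M⟩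
  nondeg_left := brpair_nondeg_right χ M
  nondeg_right := brpair_nondeg_left χ M

end General

/-- `(M, M^∨(1), ev)` is a perfect pair -/
theorem perfPair_frozen (hpS : pPrime p ∈ S) (M : Rep (ZMod p) GQ)
    [FiniteDimensional (ZMod p) M] (hM : IsSmoothRep (levelsS S) M.ρ) :
    PerfPair (levelsS S) (cycloChar p) M.ρ (M.dualTwist (cycloChar p)).ρ
      (evalPairing M (cycloChar p)) :=
  brpair_perfPair _ _ (cycloChar_smooth S hpS) M hM

/-- and so is the flipped pair `(M^∨(1), M, ev.flip)` -/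
theorem perfPair_frozen_flip (hpS : pPrime p ∈ S) (M : Rep (ZMod p) GQ)
    [FiniteDimensional (ZMod p) M] (hM : IsSmoothRep (levelsS S) M.ρ) :
    PerfPair (levelsS S) (cycloChar p) (M.dualTwist (cycloChar p)).ρ M.ρ
      (evalPairing M (cycloChar p)).flip :=
  brpair_perfPair_flip _ _ (cycloChar_smooth S hpS) M hM

end BrPair

end Fermat.Agent.S55
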