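import Fermat.Agent.S55.Bridge.Sha
import Fermat.Agent.S55.Bridge.Pair

/-! shim: the former spec file; its content now lives in Bridge/{Levels,Coh,Sha,Pair}.lean. -/
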