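import Fermat.Prelude.Def_GroupCohomology_ContinuousUnramified

/-!
# S55 bridge: finite local groups of order prime to the characteristic contribute nothing

For a finite group `H` whose order is invertible in `k`, every `1`-cocycle is a coboundary and every
`2`-cocycle is a coboundary.  If moreover `r : H →* Gal(ℚbar/ℚ)` is injective, every cochain on `H`
is level-constant, so `continuousH2 r A` is trivial.  Applied to the archimedean decomposition group
(order `≤ 2`) and `k = ZMod p`, `p` odd.
-/

set_option autoImplicit false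
set_option linter.style.haveILetI false
open CategoryTheory groupCohomology ExtCitation

namespace Fermat.Agent.S55

section FiniteGroup

variable {k H : Type} [CommRing k] [Group H] [Fintype H] (A : Rep k H)

/-- The sum of a `1`-cochain over the group. -/
noncomputable def archSum₁ (f : H → A) : A := ∑ h : H, f h

/-- `n • f = d(-X)` for a `1`-cocycle `f`, `X = ∑ f`. -/
lemma arch_card_smul_cocycle₁ (f : H → A) (hf : f ∈ cocycles₁ A) (g : H) :
    (Fintype.card H : k) • f g = A.ρ g (-(archSum₁ A f)) - (-(archSum₁ A f)) := by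
  have hc := (mem_cocycles₁_iff f).1 hf
  have h1 : ∑ h : H, f (g * h) = ∑ h : H, (A.ρ g (f h) + f g) :=
    Finset.sum_congr rfl (fun h _ => hc g h)
  have h2 : ∑ h : H, f (g * h) = ∑ h : H, f h :=
    Fintype.sum_equiv (Equiv.mulLeft g) _ _ (fun h => rfl)
  rw [h2, Finset.sum_add_distrib, Finset.sum_const, Finset.card_univ, ← map_sum] at h1
  have h3 : (Fintype.card H : k) • f g = Fintype.card H • f g := by
    rw [Nat.cast_smul_eq_nsmul]
  rw [h3, map_neg, archSum₁]
  have h4 : Fintype.card H • f g = ∑ h : H, f h - A.ρ g (∑ h : H, f h) := by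
    rw [eq_sub_iff_add_eq, add_comm]; exact h1.symm
  rw [h4]; abel

/-- If the order of `H` is invertible in `k`, every `1`-cocycle is a coboundary. -/
lemma arch_cocycles₁_le_coboundaries₁ (hn : IsUnit (Fintype.card H : k)) :
    cocycles₁ A ≤ coboundaries₁ A := by
  intro f hf
  obtain ⟨u, hu⟩ := hn
  refine ⟨(↑u⁻¹ : k) • (-(archSum₁ A f)), ?_⟩
  ext g
  rw [d₀₁_hom_apply, map_smul, ← smul_sub, ← arch_card_smul_cocycle₁ A f hf g, ← hu, smul_smul,
    Units.inv_mul, one_smul]

/-- If the order of `H` is invertible in `k`, `H¹(H, A) = 0`. -/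
lemma arch_subsingleton_H1 (hn : IsUnit (Fintype.card H : k)) : Subsingleton (H1 A) := by
  refine ⟨fun x y => ?_⟩
  have h0 : ∀ z : H1 A, z = 0 := by
    intro z
    induction z using H1_induction_on with
    | h c =>
      exact (H1π_eq_zero_iff c).2 (arch_cocycles₁_le_coboundaries₁ A hn c.2)
  rw [h0 x, h0 y]

/-- The partial sum of a `2`-cochain over the second variable. -/
noncomputable def archSum₂ (f : H × H → A) : H → A := fun g => ∑ h : H, f (g, h)

/-- `n • f = d(X)` for a `2`-cocycle `f`, `X g = ∑_h f (g, h)`. -/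
lemma arch_card_smul_cocycle₂ (f : H × H → A) (hf : f ∈ cocycles₂ A) :
    (Fintype.card H : k) • f = (d₁₂ A).hom (archSum₂ A f) := by
  have hc := (mem_cocycles₂_iff f).1 hf
  ext ⟨g₁, g₂⟩
  rw [d₁₂_hom_apply]
  simp only [archSum₂, Pi.smul_apply]
  -- sum the cocycle identity over the third variable
  have h1 : ∑ h : H, (f (g₁ * g₂, h) + f (g₁, g₂)) = ∑ h : H, (A.ρ g₁ (f (g₂, h)) + f (g₁, g₂ * h)) :=
    Finset.sum_congr rfl (fun h _ => hc g₁ g₂ h)
  have h2 : ∑ h : H, f (g₁, g₂ * h) = ∑ h : H, f (g₁, h) :=
    Fintype.sum_equiv (Equiv.mulLeft g₂) _ _ (fun h => rfl)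
  rw [Finset.sum_add_distrib, Finset.sum_add_distrib, Finset.sum_const, Finset.card_univ, h2,
    ← map_sum] at h1
  have h3 : (Fintype.card H : k) • f (g₁, g₂) = Fintype.card H • f (g₁, g₂) := by
    rw [Nat.cast_smul_eq_nsmul]
  rw [h3]
  have h4 : Fintype.card H • f (g₁, g₂) =
      A.ρ g₁ (∑ h : H, f (g₂, h)) + ∑ h : H, f (g₁, h) - ∑ h : H, f (g₁ * g₂, h) := by
    rw [eq_sub_iff_add_eq, add_comm]; exact h1
  rw [h4]; abel

/-- If the order of `H` is invertible in `k`, every `2`-cocycle is the coboundary of an explicit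
`1`-cochain. -/
lemma arch_cocycle₂_eq_d₁₂ (u : kˣ) (hu : (u : k) = Fintype.card H) (f : H × H → A)
    (hf : f ∈ cocycles₂ A) : f = (d₁₂ A).hom ((↑u⁻¹ : k) • archSum₂ A f) := by
  rw [map_smul, ← arch_card_smul_cocycle₂ A f hf, ← hu, smul_smul, Units.inv_mul, one_smul]

end FiniteGroup

section LevelConstant

variable {H : Type} [Group H] [Finite H]
  (r : H →* (AlgebraicClosure ℚ ≃ₐ[ℚ] AlgebraicClosure ℚ))

/-- For a finite group mapping injectively to the absolute Galois group there is a finite level
meeting the image trivially. -/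
lemma arch_exists_level (hr : Function.Injective r) :
    ∃ F : IntermediateField ℚ (AlgebraicClosure ℚ), FiniteDimensional ℚ F ∧
      ∀ s : H, r s ∈ F.fixingSubgroup → s = 1 := by
  classical
  -- for each `h ≠ 1` choose an element moved by `r h`
  have hmove : ∀ h : H, ∃ α : AlgebraicClosure ℚ, h ≠ 1 → r h α ≠ α := by
    intro h
    by_cases hh : h = 1
    · exact ⟨0, fun h' => absurd hh h'⟩
    · have : r h ≠ 1 := fun h1 => hh (hr (h1.trans (map_one r).symm))
      have : ∃ α, r h α ≠ α := by
        by_contra hcon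
        simp only [not_exists, not_not] at hcon
        exact this (AlgEquiv.ext hcon)
      obtain ⟨α, hα⟩ := this
      exact ⟨α, fun _ => hα⟩
  choose α hα using hmove
  have hfin : (Set.range α).Finite := Set.finite_range α
  refine ⟨IntermediateField.adjoin ℚ (Set.range α), ?_, ?_⟩
  · haveI : Finite (Set.range α) := hfin
    haveI : Algebra.IsAlgebraic ℚ (AlgebraicClosure ℚ) := AlgebraicClosure.isAlgebraic ℚ
    exact IntermediateField.finiteDimensional_adjoin
      (fun x _ => (Algebra.IsAlgebraic.isAlgebraic (R := ℚ) x).isIntegral)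
  · intro s hs
    by_contra hne
    have hmem : α s ∈ IntermediateField.adjoin ℚ (Set.range α) :=
      IntermediateField.subset_adjoin ℚ _ ⟨s, rfl⟩
    exact hα s hne ((IntermediateField.mem_fixingSubgroup_iff _ _).1 hs (α s) hmem)

lemma arch_isLevelConstant₁ (hr : Function.Injective r) {X : Type*} (f : H → X) :
    IsLevelConstant₁ r f := by
  obtain ⟨F, hF, h⟩ := arch_exists_level r hr
  refine ⟨F, hF, fun g s hs => ?_⟩
  rw [h s hs, mul_one]

lemma arch_isLevelConstant₂ (hr : Function.Injective r) {X : Type*} (f : H × H → X) :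
    IsLevelConstant₂ r f := by
  obtain ⟨F, hF, h⟩ := arch_exists_level r hr
  refine ⟨F, hF, fun g g' s s' hs hs' => ?_⟩
  rw [h s hs, h s' hs', mul_one, mul_one]

end LevelConstant

section ContinuousH2

variable {k H : Type} [CommRing k] [Group H] [Fintype H]
  (r : H →* (AlgebraicClosure ℚ ≃ₐ[ℚ] AlgebraicClosure ℚ)) (A : Rep k H)

/-- For a finite group of order invertible in `k` mapping injectively to the absolute Galois group,
the level-constant `H²` vanishes. -/
lemma arch_subsingleton_continuousH2 (hr : Function.Injective r)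
    (hn : IsUnit (Fintype.card H : k)) : Subsingleton (continuousH2 r A) := by
  obtain ⟨u, hu⟩ := hn
  refine ⟨fun x y => ?_⟩
  have h0 : ∀ z : continuousH2 r A, z = 0 := by
    intro z
    induction z using Submodule.Quotient.induction_on with
    | H c =>
      rw [← Submodule.mkQ_apply]
      refine (continuousH2π_eq_zero_iff r A c).2 ?_
      refine (mem_levelCoboundaries₂_iff r A _).2
        ⟨(↑u⁻¹ : k) • archSum₂ A (c : H × H → A), arch_isLevelConstant₁ r hr _, ?_⟩
      exact (arch_cocycle₂_eq_d₁₂ A u hu (c : H × H → A) c.2.1).symm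
  rw [h0 x, h0 y]

end ContinuousH2

end Fermat.Agent.S55

namespace Fermat.Agent.S55

section Archimedean

lemma arch_isOfFinOrder : IsOfFinOrder complexConjugation :=
  isOfFinOrder_iff_pow_eq_one.2 ⟨2, by norm_num, complexConjugation_sq⟩

instance arch_finite : Finite ↥archimedeanDecomposition := by
  have h : ((Subgroup.zpowers complexConjugation :
      Subgroup (AlgebraicClosure ℚ ≃ₐ[ℚ] AlgebraicClosure ℚ)) :
      Set (AlgebraicClosure ℚ ≃ₐ[ℚ] AlgebraicClosure ℚ)).Finite :=
    finite_zpowers.2 arch_isOfFinOrder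
  exact h.to_subtype

lemma arch_card_dvd_two : Nat.card ↥archimedeanDecomposition ∣ 2 := by
  have h : Nat.card ↥(Subgroup.zpowers complexConjugation) = orderOf complexConjugation :=
    Nat.card_zpowers complexConjugation
  unfold archimedeanDecomposition
  rw [h]
  exact orderOf_dvd_of_pow_eq_one complexConjugation_sq

lemma arch_isUnit_card {p : ℕ} [Fact p.Prime] (hp2 : p ≠ 2) :
    IsUnit ((Nat.card ↥archimedeanDecomposition : ℕ) : ZMod p) := by
  rw [ZMod.isUnit_iff_coprime]
  have hp : p.Prime := Fact.out
  have h2 : Nat.Coprime 2 p := by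
    rw [Nat.coprime_comm, Nat.Prime.coprime_iff_not_dvd hp]
    intro h
    exact hp2 ((Nat.prime_dvd_prime_iff_eq hp Nat.prime_two).1 h)
  exact Nat.Coprime.coprime_dvd_left arch_card_dvd_two h2

lemma archimedeanLoc_injective : Function.Injective archimedeanLoc :=
  Subtype.val_injective

variable {p : ℕ} [Fact p.Prime]

/-- For `p` odd the archimedean local `H¹` (abstract cohomology of a group of order `≤ 2`)
vanishes. -/
lemma arch_subsingleton_H1_archimedean (hp2 : p ≠ 2) (A : Rep (ZMod p) ↥archimedeanDecomposition) :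
    Subsingleton (H1 A) := by
  letI : Fintype ↥archimedeanDecomposition := Fintype.ofFinite _
  refine arch_subsingleton_H1 A ?_
  rw [← Nat.card_eq_fintype_card]
  exact arch_isUnit_card hp2

/-- For `p` odd the archimedean local level-constant `H²` vanishes. -/
lemma arch_subsingleton_continuousH2_archimedean (hp2 : p ≠ 2)
    (A : Rep (ZMod p) ↥archimedeanDecomposition) :
    Subsingleton (continuousH2 archimedeanLoc A) := by
  letI : Fintype ↥archimedeanDecomposition := Fintype.ofFinite _
  refine arch_subsingleton_continuousH2 archimedeanLoc A archimedeanLoc_injective ?_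
  rw [← Nat.card_eq_fintype_card]
  exact arch_isUnit_card hp2

end Archimedean

end Fermat.Agent.S55
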