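import Fermat.Agent.S55.Bridge.Levels

/-!
# S55, leaf T-BR-COH: section BrCoh of `Bridge/BridgeSpec.lean` with every placeholder replaced.

Mathlib's low-degree differentials `d₀₁, d₁₂, d₂₃` are the top layer's `dd0, dd1, dd2`; the
frozen Prelude's `continuousH2S S M` and `continuousH2 r N` are the smooth cohomology groups
`smH2 (levelsS S) M.ρ` and `smH2 (levelsAll.comap r) N.ρ` (identity on representatives), compatibly
with localisation.  Black boxes: the four `isLC…_iff` statements of section BrLevels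
(`Bridge/Levels.lean`).  Auxiliary names have the prefix `brcoh`.
-/

set_option autoImplicit false

open groupCohomology ExtCitation

namespace Fermat.Agent.S55

section BrCoh

variable (S : Finset Nat.Primes) {k : Type} [CommRing k]

/-- Mathlib's differentials are ours -/
theorem d₁₂_eq_dd1 {G : Type} [Group G] (M : Rep k G) (f : G → M) :
    (d₁₂ M).hom f = dd1 M.ρ f := by
  funext ⟨g, h⟩
  rfl

theorem brcoh_d₂₃_eq_dd2 {G : Type} [Group G] (M : Rep k G) (f : G × G → M) :
    (d₂₃ M).hom f = dd2 M.ρ f := by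
  funext ⟨g, h, j⟩
  rfl

theorem brcoh_d₀₁_eq_dd0 {G : Type} [Group G] (M : Rep k G) (m : M) :
    (d₀₁ M).hom m = dd0 M.ρ m := by
  funext g
  rfl

theorem mem_cocycles₂_iff_dd2 {G : Type} [Group G] (M : Rep k G) (f : G × G → M) :
    f ∈ cocycles₂ M ↔ dd2 M.ρ f = 0 := by
  rw [← brcoh_d₂₃_eq_dd2]
  exact LinearMap.mem_ker

theorem mem_cocycles₁_iff_dd1 {G : Type} [Group G] (M : Rep k G) (f : G → M) :
    f ∈ cocycles₁ M ↔ dd1 M.ρ f = 0 := by
  rw [← d₁₂_eq_dd1]
  exact LinearMap.mem_ker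

theorem mem_coboundaries₁_iff_dd0 {G : Type} [Group G] (M : Rep k G) (f : G → M) :
    f ∈ coboundaries₁ M ↔ ∃ m : M, dd0 M.ρ m = f := by
  simp only [← brcoh_d₀₁_eq_dd0]
  exact LinearMap.mem_range

/-- two presentations `Z ⧸ B` of a subquotient of the same module with equal `Z` and equal `B` -/
noncomputable def brcohQuotEquiv {X : Type*} [AddCommGroup X] [Module k X]
    {Z Z' B B' : Submodule k X} (hZ : Z = Z') (hB : B = B') :
    (↥Z ⧸ B.comap Z.subtype) ≃ₗ[k] (↥Z' ⧸ B'.comap Z'.subtype) :=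
  Submodule.Quotient.equiv _ _ (LinearEquiv.ofEq Z Z' hZ) (by
    subst hZ; subst hB
    ext x
    simp)

theorem brcohQuotEquiv_mk {X : Type*} [AddCommGroup X] [Module k X]
    {Z Z' B B' : Submodule k X} (hZ : Z = Z') (hB : B = B') (x : ↥Z) (hx : (x : X) ∈ Z') :
    brcohQuotEquiv hZ hB (Submodule.Quotient.mk x) = Submodule.Quotient.mk ⟨x, hx⟩ := rfl

theorem brcoh_levelCocyclesS₂_eq (M : Rep k GQ) :
    levelCocyclesS₂ S M = smZ2 (levelsS S) M.ρ := by
  ext f
  rw [mem_levelCocyclesS₂_iff, mem_smZ2, mem_cocycles₂_iff_dd2, isLC₂_levelsS_iff]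

theorem brcoh_levelCoboundariesS₂_eq (M : Rep k GQ) :
    levelCoboundariesS₂ S M = smB2 (levelsS S) M.ρ := by
  ext f
  rw [mem_levelCoboundariesS₂_iff, mem_smB2]
  refine exists_congr fun x => ?_
  rw [d₁₂_eq_dd1, isLC₁_levelsS_iff]

theorem brcoh_levelCocycles₂_eq {H : Type} [Group H] (r : H →* GQ) (N : Rep k H) :
    levelCocycles₂ r N = smZ2 (levelsAll.comap r) N.ρ := by
  ext f
  rw [mem_levelCocycles₂_iff, mem_smZ2, mem_cocycles₂_iff_dd2, isLC₂_comap_iff]

theorem brcoh_levelCoboundaries₂_eq {H : Type} [Group H] (r : H →* GQ) (N : Rep k H) :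
    levelCoboundaries₂ r N = smB2 (levelsAll.comap r) N.ρ := by
  ext f
  rw [mem_levelCoboundaries₂_iff, mem_smB2]
  refine exists_congr fun x => ?_
  rw [d₁₂_eq_dd1, isLC₁_comap_iff]

/-- `continuousH2S S M ≃ smH2 (levelsS S) M.ρ`, identity on representatives -/
noncomputable def smH2EquivS (M : Rep k GQ) : continuousH2S S M ≃ₗ[k] smH2 (levelsS S) M.ρ :=
  brcohQuotEquiv (brcoh_levelCocyclesS₂_eq S M) (brcoh_levelCoboundariesS₂_eq S M)

theorem smH2EquivS_mk (M : Rep k GQ) (c : ↥(levelCocyclesS₂ S M)) (hc : (c : GQ × GQ → M) ∈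
      smZ2 (levelsS S) M.ρ) :
    smH2EquivS S M (continuousH2Sπ S M c) = smH2π (levelsS S) M.ρ ⟨c, hc⟩ :=
  rfl

/-- `continuousH2 r N ≃ smH2 (levelsAll.comap r) N.ρ`, identity on representatives -/
noncomputable def smH2EquivLoc {H : Type} [Group H] (r : H →* GQ) (N : Rep k H) :
    continuousH2 r N ≃ₗ[k] smH2 (levelsAll.comap r) N.ρ :=
  brcohQuotEquiv (brcoh_levelCocycles₂_eq r N) (brcoh_levelCoboundaries₂_eq r N)

theorem smH2EquivLoc_mk {H : Type} [Group H] (r : H →* GQ) (N : Rep k H)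
    (c : ↥(levelCocycles₂ r N)) (hc : (c : H × H → N) ∈ smZ2 (levelsAll.comap r) N.ρ) :
    smH2EquivLoc r N (continuousH2π r N c) = smH2π (levelsAll.comap r) N.ρ ⟨c, hc⟩ :=
  rfl

/-- compatibility with localisation at a finite place of `S` -/
theorem smH2EquivLoc_locRes₂S (M : Rep k GQ) (q : ↥S) (x : continuousH2S S M) :
    smH2EquivLoc (primeLocalToGlobal q.1) (Rep.res (primeLocalToGlobal q.1) M)
        (locRes₂S S M (primeLocalToGlobal q.1) x)
      = smH2res M.ρ ((locSysS S).cont q) (smH2EquivS S M x) := by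
  induction x using Submodule.Quotient.induction_on with | _ c =>
  rfl

end BrCoh

end Fermat.Agent.S55
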