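import Fermat.Agent.S55.Bridge.Coh
import Fermat.Agent.S55.Top.ExtSpec
import Fermat.Agent.S55.Bridge.Arch

/-!
# S55, leaf T-BR-SHA: section BrSha of `Bridge/BridgeSpec.lean` with every placeholder replaced.

* `nonempty_sha₂_equiv`: the Prelude's `sha₂ S M` (kernel of the total localisation over
  `extArithIndex S = Unit ⊕ ↥S`, archimedean place included) is the top layer's
  `sha2 (locSysS S) M.ρ` (finite places only) for `p` odd: transport along `smH2EquivS`, the
  archimedean component lands in a subsingleton (`Bridge/Arch.lean`), the finite components are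
  matched by `smH2EquivLoc_locRes₂S`.
* `nonempty_sha₁_equiv`: the Prelude's `sha₁ S A ≤ H1 A` (Mathlib's abstract `H¹`) is the top
  layer's `sha1 (locSysS S) A.ρ`: the comparison map `brshaPhi : smH1 𝓛 A.ρ → H1 A`, `[f] ↦ [f]`
  is injective with range `continuousH1S S A`, and a class dies in `H1 (Rep.res r A)` iff its
  restriction is a coboundary iff it dies in `smH1`.

Auxiliary names have the prefix `brsha`.
-/

set_option autoImplicit false

open groupCohomology ExtCitation CategoryTheory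

namespace Fermat.Agent.S55

section BrSha

variable {p : ℕ} [Fact p.Prime] (S : Finset Nat.Primes)

theorem brsha_mem_sha₂_iff (hp2 : p ≠ 2) (M : Rep (ZMod p) GQ) (x : continuousH2S S M) :
    x ∈ sha₂ S M ↔ smH2EquivS S M x ∈ sha2 (locSysS S) M.ρ := by
  have key : ∀ q : ↥S, smH2res M.ρ ((locSysS S).cont q) (smH2EquivS S M x) = 0 ↔
      locRes₂S S M (primeLocalToGlobal q.1) x = 0 := by
    intro q
    rw [← smH2EquivLoc_locRes₂S]
    exact LinearEquiv.map_eq_zero_iff _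
  constructor
  · intro hx
    have hx' : locTotal₂S S M x = 0 := hx
    show locP2 (locSysS S) (ρ := M.ρ) (smH2EquivS S M x) = 0
    funext q
    show smH2res M.ρ ((locSysS S).cont q) (smH2EquivS S M x) = 0
    rw [key]
    exact congrFun hx' (Sum.inr q)
  · intro hx
    have hx' : locP2 (locSysS S) (ρ := M.ρ) (smH2EquivS S M x) = 0 := hx
    show locTotal₂S S M x = 0
    funext v
    rcases v with u | q
    · have : Subsingleton (continuousH2 (extArithLoc S (Sum.inl u))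
          (Rep.res (extArithLoc S (Sum.inl u)) M)) :=
        arch_subsingleton_continuousH2_archimedean hp2 (Rep.res archimedeanLoc M)
      exact Subsingleton.elim _ _
    · show locRes₂S S M (primeLocalToGlobal q.1) x = 0
      rw [← key]
      exact congrFun hx' q

/-- `sha₂` of the Prelude is `sha2` of the top layer, for `p` odd -/
theorem nonempty_sha₂_equiv (hp2 : p ≠ 2) (M : Rep (ZMod p) GQ) :
    Nonempty (↥(sha₂ S M) ≃ₗ[ZMod p] ↥(sha2 (locSysS S) M.ρ)) := by
  refine ⟨LinearEquiv.ofSubmodules (smH2EquivS S M) _ _ ?_⟩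
  ext y
  constructor
  · rintro ⟨x, hx, rfl⟩
    exact (brsha_mem_sha₂_iff S hp2 M x).1 hx
  · intro hy
    refine ⟨(smH2EquivS S M).symm y, ?_, by simp⟩
    rw [SetLike.mem_coe, brsha_mem_sha₂_iff S hp2 M, LinearEquiv.apply_symm_apply]
    exact hy

section Phi

variable {k : Type} [CommRing k] {G : Type} [Group G] (𝓛 : Levels G) (A : Rep k G)

/-- smooth cocycles are cocycles -/
def brshaIncl : ↥(smZ1 𝓛 A.ρ) →ₗ[k] ↥(cocycles₁ A) where
  toFun f := ⟨(f : G → A), (mem_cocycles₁_iff_dd1 A _).2 (LinearMap.mem_ker.1 f.2.1)⟩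
  map_add' _ _ := rfl
  map_smul' _ _ := rfl

/-- the comparison map `smH1 𝓛 A.ρ → H1 A`, `[f] ↦ [f]` -/
noncomputable def brshaPhi : smH1 𝓛 A.ρ →ₗ[k] H1 A :=
  Submodule.liftQ _ ((H1π A).hom ∘ₗ brshaIncl 𝓛 A) (by
    rintro f ⟨m, hm⟩
    rw [LinearMap.mem_ker, LinearMap.comp_apply]
    refine (H1π_eq_zero_iff _).2 ?_
    exact (mem_coboundaries₁_iff_dd0 A _).2 ⟨m, hm⟩)

theorem brshaPhi_mk (f : ↥(smZ1 𝓛 A.ρ)) :
    brshaPhi 𝓛 A (smH1π 𝓛 A.ρ f) = H1π A (brshaIncl 𝓛 A f) := rfl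

theorem brshaPhi_injective : Function.Injective (brshaPhi 𝓛 A) := by
  rw [← LinearMap.ker_eq_bot, LinearMap.ker_eq_bot']
  intro y hy
  induction y using Submodule.Quotient.induction_on with | _ f =>
  have hy' : H1π A (brshaIncl 𝓛 A f) = 0 := hy
  rw [H1π_eq_zero_iff] at hy'
  obtain ⟨m, hm⟩ := (mem_coboundaries₁_iff_dd0 A _).1 hy'
  exact (smH1π_eq_zero_iff 𝓛 A.ρ f).2 ⟨m, hm⟩

/-- the restriction of `Φ [f]` to a local group dies in Mathlib's `H1` iff `f ∘ r` is a
coboundary -/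
theorem brsha_map_phi_eq_zero_iff {H : Type} [Group H] (r : H →* G) (f : ↥(smZ1 𝓛 A.ρ)) :
    (groupCohomology.map r (𝟙 (Rep.res r A)) 1).hom (brshaPhi 𝓛 A (smH1π 𝓛 A.ρ f)) = 0 ↔
      ∃ m : A, dd0 (A.ρ.comp r) m = res1 k r (f : G → A) := by
  rw [brshaPhi_mk]
  have h1 := H1π_comp_map_apply r (𝟙 (Rep.res r A)) (brshaIncl 𝓛 A f)
  rw [show (groupCohomology.map r (𝟙 (Rep.res r A)) 1).hom (H1π A (brshaIncl 𝓛 A f))
      = H1π (Rep.res r A) (mapCocycles₁ r (𝟙 (Rep.res r A)) (brshaIncl 𝓛 A f)) from h1]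
  rw [H1π_eq_zero_iff, mem_coboundaries₁_iff_dd0]
  rfl
end Phi

theorem brshaPhi_mem_continuousH1S {k : Type} [CommRing k] (A : Rep k GQ)
    (y : smH1 (levelsS S) A.ρ) : brshaPhi (levelsS S) A y ∈ continuousH1S S A := by
  induction y using Submodule.Quotient.induction_on with | _ f =>
  exact (mem_continuousH1S_iff S A _).2
    ⟨brshaIncl (levelsS S) A f, (isLC₁_levelsS_iff S _).1 f.2.2, rfl⟩

theorem brsha_exists_of_mem_continuousH1S {k : Type} [CommRing k] (A : Rep k GQ)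
    (x : H1 A) (hx : x ∈ continuousH1S S A) : ∃ y, brshaPhi (levelsS S) A y = x := by
  obtain ⟨c, hc, rfl⟩ := (mem_continuousH1S_iff S A x).1 hx
  have hc' : (c : GQ → A) ∈ smZ1 (levelsS S) A.ρ :=
    ⟨LinearMap.mem_ker.2 ((mem_cocycles₁_iff_dd1 A _).1 c.2), (isLC₁_levelsS_iff S _).2 hc⟩
  exact ⟨smH1π (levelsS S) A.ρ ⟨c, hc'⟩, rfl⟩

theorem brsha_mem_sha1_iff (hp2 : p ≠ 2) (A : Rep (ZMod p) GQ) (y : smH1 (levelsS S) A.ρ) :
    y ∈ sha1 (locSysS S) A.ρ ↔ brshaPhi (levelsS S) A y ∈ sha₁ S A := by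
  induction y using Submodule.Quotient.induction_on with | _ f =>
  have key : ∀ q : ↥S, smH1res A.ρ ((locSysS S).cont q) (smH1π (levelsS S) A.ρ f) = 0 ↔
      (locRes (extArithLoc S) A (Sum.inr q)).hom
        (brshaPhi (levelsS S) A (smH1π (levelsS S) A.ρ f)) = 0 := by
    intro q
    rw [smH1res_mk, smH1π_eq_zero_iff, mem_smB1]
    exact (brsha_map_phi_eq_zero_iff (levelsS S) A (primeLocalToGlobal q.1) f).symm
  constructor
  · intro hy
    have hy' : locP1 (locSysS S) (ρ := A.ρ) (smH1π (levelsS S) A.ρ f) = 0 := hy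
    refine ⟨brshaPhi_mem_continuousH1S S A _, ?_⟩
    show locTotal (extArithLoc S) A _ = 0
    funext v
    rcases v with u | q
    · have : Subsingleton (H1 (Rep.res (extArithLoc S (Sum.inl u)) A)) :=
        arch_subsingleton_H1_archimedean hp2 (Rep.res archimedeanLoc A)
      exact Subsingleton.elim _ _
    · exact (key q).1 (congrFun hy' q)
  · rintro ⟨-, hy⟩
    have hy' : locTotal (extArithLoc S) A
        (brshaPhi (levelsS S) A (smH1π (levelsS S) A.ρ f)) = 0 := hy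
    show locP1 (locSysS S) (ρ := A.ρ) (smH1π (levelsS S) A.ρ f) = 0
    funext q
    exact (key q).2 (congrFun hy' (Sum.inr q))

/-- `sha₁` of the Prelude (a submodule of Mathlib's abstract `H1`) is `sha1` of the top layer,
for `p` odd and `A` smooth -/
theorem nonempty_sha₁_equiv (hp2 : p ≠ 2) (A : Rep (ZMod p) GQ)
    (hA : IsSmoothRep (levelsS S) A.ρ) :
    Nonempty (↥(sha₁ S A) ≃ₗ[ZMod p] ↥(sha1 (locSysS S) A.ρ)) := by
  have _ := hA
  let Ψ : ↥(sha1 (locSysS S) A.ρ) →ₗ[ZMod p] ↥(sha₁ S A) :=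
    ((brshaPhi (levelsS S) A).comp (sha1 (locSysS S) A.ρ).subtype).codRestrict _
      (fun y => (brsha_mem_sha1_iff S hp2 A y).1 y.2)
  have hinj : Function.Injective Ψ := by
    intro y y' h
    apply Subtype.ext
    exact brshaPhi_injective (levelsS S) A (congrArg Subtype.val h)
  have hsurj : Function.Surjective Ψ := by
    rintro ⟨x, hx⟩
    obtain ⟨y, rfl⟩ := brsha_exists_of_mem_continuousH1S S A x hx.1
    exact ⟨⟨y, (brsha_mem_sha1_iff S hp2 A y).2 hx⟩, rfl⟩
  exact ⟨(LinearEquiv.ofBijective Ψ ⟨hinj, hsurj⟩).symm⟩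

end BrSha

end Fermat.Agent.S55
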